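import Fermat.Agent.Selection.Analytic
import Mathlib.MeasureTheory.Constructions.BorelSpace.Metrizable
import Mathlib.Analysis.SpecificLimits.Basic

/-!
# Measurable selectors

The selection theorem of Kuratowski and Ryll-Nardzewski, and from it the uniformisation theorem
of Jankov and von Neumann.
-/

set_option autoImplicit false

universe u v w

namespace FA.Selection

open Set Topology Filter MeasureTheory Metric

/-- The step of the construction of a selector: the least code of a ball of radius `r` inside
which, and inside the ball coded by `m` of radius `R`, the value still has points. -/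
theorem exists_measurable_refinement {Ω : Type u} [MeasurableSpace Ω] {X : Type v}
    [MetricSpace X] [TopologicalSpace.SeparableSpace X] [Nonempty X] {F : Ω → Set X}
    (hm : ∀ U, IsOpen U → MeasurableSet {ω | (F ω ∩ U).Nonempty}) {r : ℝ} (hr : 0 < r) (R : ℝ) :
    ∃ g : Ω × ℕ → ℕ, Measurable g ∧ ∀ ω m,
      (F ω ∩ ball (TopologicalSpace.denseSeq X m) R).Nonempty →
      (F ω ∩ (ball (TopologicalSpace.denseSeq X (g (ω, m))) r ∩
        ball (TopologicalSpace.denseSeq X m) R)).Nonempty := by
  classical
  let d := TopologicalSpace.denseSeq X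
  let P : Ω × ℕ → ℕ → Prop := fun p n => (F p.1 ∩ ball (d p.2) R).Nonempty →
    (F p.1 ∩ (ball (d n) r ∩ ball (d p.2) R)).Nonempty
  have hex : ∀ p, ∃ n, P p n := fun p => by
    by_cases h : (F p.1 ∩ ball (d p.2) R).Nonempty
    · obtain ⟨x, hxF, hxR⟩ := h
      obtain ⟨n, hn⟩ := (TopologicalSpace.denseRange_denseSeq X).exists_dist_lt x hr
      exact ⟨n, fun _ => ⟨x, hxF, mem_ball.2 hn, hxR⟩⟩
    · exact ⟨0, fun h' => absurd h' h⟩
  refine ⟨fun p => Nat.find (hex p),
    measurable_from_prod_countable_left fun m => measurable_find (fun ω => hex (ω, m)) fun n => ?_,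
    fun ω m h => Nat.find_spec (hex (ω, m)) h⟩
  exact MeasurableSet.imp (hm (ball (d m) R) isOpen_ball)
    (hm (ball (d n) r ∩ ball (d m) R) (isOpen_ball.inter isOpen_ball))

/-- **Kuratowski and Ryll-Nardzewski.** A map into the nonempty closed subsets of a Polish
space, which is weakly measurable, has a measurable selector. -/
theorem exists_measurable_selector {Ω : Type u} [MeasurableSpace Ω] {X : Type v}
    [TopologicalSpace X] [PolishSpace X] [MeasurableSpace X] [BorelSpace X] {F : Ω → Set X}
    (hc : ∀ ω, IsClosed (F ω)) (hne : ∀ ω, (F ω).Nonempty)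
    (hm : ∀ U, IsOpen U → MeasurableSet {ω | (F ω ∩ U).Nonempty}) :
    ∃ f : Ω → X, Measurable f ∧ ∀ ω, f ω ∈ F ω := by
  classical
  rcases isEmpty_or_nonempty Ω with hΩ | ⟨⟨ω₀⟩⟩
  · exact ⟨isEmptyElim, measurable_of_empty _, isEmptyElim⟩
  have : Nonempty X := ⟨(hne ω₀).choose⟩
  let := TopologicalSpace.upgradeIsCompletelyMetrizable X
  let r : ℕ → ℝ := fun k => (1 / 2) ^ k
  have hr : ∀ k, 0 < r k := fun k => pow_pos (by norm_num) k
  let d := TopologicalSpace.denseSeq X
  choose g hg hgF using fun k => exists_measurable_refinement hm (hr (k + 1)) (r k)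
  have hex : ∀ ω, ∃ n, (F ω ∩ ball (d n) (r 0)).Nonempty := fun ω => by
    obtain ⟨n, hn⟩ := (TopologicalSpace.denseRange_denseSeq X).exists_dist_lt (hne ω).choose (hr 0)
    exact ⟨n, (hne ω).choose, (hne ω).choose_spec, mem_ball.2 hn⟩
  let N : ℕ → Ω → ℕ := fun k => Nat.rec (fun ω => Nat.find (hex ω))
    (fun k Nk ω => g k (ω, Nk ω)) k
  have hN : ∀ k, Measurable (N k) := fun k => by
    induction k with
    | zero => exact measurable_find hex fun n => hm _ isOpen_ball
    | succ k ih => exact (hg k).comp (measurable_id.prodMk ih)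
  have hF : ∀ k ω, (F ω ∩ ball (d (N k ω)) (r k)).Nonempty := fun k ω => by
    induction k with
    | zero => exact Nat.find_spec (hex ω)
    | succ k ih => exact (hgF k ω _ ih).mono (inter_subset_inter_right _ inter_subset_left)
  have hdist : ∀ ω k, dist (d (N k ω)) (d (N (k + 1) ω)) ≤ 2 * (1 / 2 : ℝ) ^ k := fun ω k => by
    obtain ⟨x, -, h1, h2⟩ := hgF k ω _ (hF k ω)
    rw [mem_ball] at h1 h2
    have e : r (k + 1) = r k * (1 / 2) := pow_succ _ _
    calc dist (d (N k ω)) (d (N (k + 1) ω))
        ≤ dist x (d (N k ω)) + dist x (d (N (k + 1) ω)) := dist_triangle_left _ _ _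
      _ ≤ r k + r (k + 1) := add_le_add h2.le h1.le
      _ ≤ 2 * r k := by linarith [hr k]
  choose f hf using fun ω => cauchySeq_tendsto_of_complete
    (cauchySeq_of_le_geometric (1 / 2 : ℝ) 2 (by norm_num) (hdist ω))
  refine ⟨f, measurable_of_tendsto_metrizable
    (fun k => (measurable_from_nat (f := d)).comp (hN k)) (tendsto_pi_nhds.2 hf), fun ω => ?_⟩
  choose y hyF hy using fun k => hF k ω
  refine (hc ω).mem_of_tendsto (b := atTop) (f := y) ?_ (Eventually.of_forall hyF)
  exact (tendsto_iff_of_dist (squeeze_zero (fun _ => dist_nonneg)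
    (fun k => (mem_ball'.1 (hy k)).le)
    (tendsto_pow_atTop_nhds_zero_of_lt_one (by norm_num) (by norm_num)))).1 (hf ω)

variable {X : Type u} [TopologicalSpace X] {Y : Type v} [TopologicalSpace Y]

/-- **Jankov and von Neumann.** An analytic relation has a uniformising function measurable for
the σ-algebra generated by the analytic sets. -/
theorem exists_analytic_uniformization [T2Space X] [MeasurableSpace Y] [BorelSpace Y]
    [Nonempty Y] {R : Set (X × Y)} (hR : AnalyticSet R) :
    ∃ f : X → Y, Measurable[analyticSpace X] f ∧ ∀ x ∈ Prod.fst '' R, (x, f x) ∈ R := by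
  classical
  rw [AnalyticSet] at hR
  rcases hR with rfl | ⟨φ, hφ, rfl⟩
  · exact ⟨fun _ => Classical.arbitrary Y, measurable_const, by simp⟩
  have : PolishSpace (ℕ → ℕ) := ⟨⟩
  let D : Set X := Prod.fst '' range φ
  let F : X → Set (ℕ → ℕ) := fun x => if x ∈ D then {z | (φ z).1 = x} else univ
  have hc : ∀ x, IsClosed (F x) := fun x => by
    by_cases hx : x ∈ D <;> simp only [F, hx, if_true, if_false]
    exacts [isClosed_eq hφ.fst continuous_const, isClosed_univ]
  have hne : ∀ x, (F x).Nonempty := fun x => by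
    by_cases hx : x ∈ D <;> simp only [F, hx, if_true, if_false]
    · obtain ⟨_, ⟨z, rfl⟩, h⟩ := hx
      exact ⟨z, h⟩
    · exact univ_nonempty
  have hD : MeasurableSet[analyticSpace X] D := analyticSet_measurable_analyticSpace <| by
    rw [show D = range (Prod.fst ∘ φ) from (range_comp _ _).symm]
    exact analyticSet_range_of_polishSpace hφ.fst
  obtain ⟨z, hz, hzF⟩ := @exists_measurable_selector X (analyticSpace X) (ℕ → ℕ) _ _ _ _ F hc hne
    fun U hU => by
      have e : {x | (F x ∩ U).Nonempty} =
          (fun z => (φ z).1) '' U ∪ Dᶜ ∩ {_x | U.Nonempty} := by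
        ext x
        by_cases hx : x ∈ D
        · constructor
          · rintro ⟨z, hz, hzU⟩
            exact .inl ⟨z, hzU, by simpa [F, hx] using hz⟩
          · rintro (⟨z, hzU, rfl⟩ | h)
            · exact ⟨z, by simp [F, hx], hzU⟩
            · exact absurd hx h.1
        · constructor
          · rintro ⟨z, -, hzU⟩
            exact .inr ⟨hx, z, hzU⟩
          · rintro (⟨z, hzU, rfl⟩ | ⟨-, z, hzU⟩)
            · exact absurd ⟨_, ⟨z, rfl⟩, rfl⟩ hx
            · exact ⟨z, by simp [F, hx], hzU⟩
      rw [e]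
      exact (analyticSet_measurable_analyticSpace (hU.analyticSet_image hφ.fst)).union
        (hD.compl.inter (MeasurableSet.const _))
  refine ⟨fun x => (φ (z x)).2, hφ.snd.measurable.comp hz, fun x hx => ⟨z x, ?_⟩⟩
  have := hzF x
  simp only [F, D, hx, if_true, mem_ofPred_eq] at this
  exact Prod.ext this rfl

end FA.Selection
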