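import Fermat.Agent.Selection.Selectors

/-!
# The measurable maximum theorem
-/

set_option autoImplicit false

universe u v

namespace FA.Selection

open Set Topology Filter MeasureTheory

/-- **The measurable maximum theorem.** A Carathéodory function on a compact metric space has a
measurable maximiser. -/
theorem exists_measurable_argmax {Ω : Type u} [MeasurableSpace Ω] {X : Type v} [MetricSpace X]
    [CompactSpace X] [Nonempty X] [MeasurableSpace X] [BorelSpace X] {g : Ω → X → ℝ}
    (hg : ∀ x, Measurable fun ω => g ω x) (hcont : ∀ ω, Continuous (g ω)) :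
    ∃ f : Ω → X, Measurable f ∧ ∀ ω x, g ω x ≤ g ω (f ω) := by
  have : PolishSpace X := {}
  obtain ⟨f, hf, hfF⟩ := exists_measurable_selector (F := fun ω => {y | ∀ x, g ω x ≤ g ω y})
    (fun ω => by
      simp only [ofPred_forall]
      exact isClosed_iInter fun x => isClosed_le continuous_const (hcont ω))
    (fun ω => by
      obtain ⟨y, -, hy⟩ := isCompact_univ.exists_isMaxOn univ_nonempty (hcont ω).continuousOn
      exact ⟨y, fun x => hy (mem_univ x)⟩) fun U hU => by
    obtain ⟨C, hCc, -, hCU, -⟩ := hU.exists_iUnion_isClosed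
    have e : {ω | ({y | ∀ x, g ω x ≤ g ω y} ∩ U).Nonempty} =
        ⋃ n, {ω | ({y | ∀ x, g ω x ≤ g ω y} ∩ C n).Nonempty} := by
      ext ω
      simp only [← hCU, inter_iUnion, nonempty_iUnion, mem_iUnion, mem_ofPred_eq]
    rw [e]
    refine MeasurableSet.iUnion fun n => ?_
    rcases (C n).eq_empty_or_nonempty with h | h
    · simp [h]
    have := h.to_subtype
    let d := TopologicalSpace.denseSeq X
    let c := TopologicalSpace.denseSeq (C n)
    have hset : {ω | ({y | ∀ x, g ω x ≤ g ω y} ∩ C n).Nonempty} =
        ⋂ (i : ℕ) (m : ℕ), ⋃ j : ℕ, {ω | g ω (d i) < g ω (c j) + 1 / (m + 1 : ℝ)} := by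
      ext ω
      simp only [mem_ofPred_eq, mem_iInter, mem_iUnion]
      constructor
      · rintro ⟨y, hy, hyC⟩ i m
        obtain ⟨j, hj⟩ : ∃ j, c j ∈ {z : C n | g ω y < g ω z + 1 / (m + 1 : ℝ)} :=
          (TopologicalSpace.denseRange_denseSeq (C n)).exists_mem_open
            (isOpen_lt continuous_const (((hcont ω).comp continuous_subtype_val).add
              continuous_const)) ⟨⟨y, hyC⟩, show g ω y < g ω y + 1 / (m + 1 : ℝ) from
              lt_add_of_pos_right _ Nat.one_div_pos_of_nat⟩
        exact ⟨j, (hy _).trans_lt hj⟩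
      · intro hω
        obtain ⟨y, hyC, hy⟩ :=
          (hCc n).isCompact.exists_isMaxOn h (hcont ω).continuousOn
        refine ⟨y, fun x => (TopologicalSpace.denseRange_denseSeq X).induction_on x
          (isClosed_le (hcont ω) continuous_const) fun i => le_of_forall_pos_le_add fun ε hε => ?_,
          hyC⟩
        obtain ⟨m, hm⟩ := exists_nat_one_div_lt hε
        obtain ⟨j, hj⟩ := hω i m
        have : g ω (c j) ≤ g ω y := hy (c j).2
        exact hj.le.trans (add_le_add this hm.le)
    rw [hset]
    exact MeasurableSet.iInter fun i => MeasurableSet.iInter fun m => MeasurableSet.iUnion fun j =>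
      measurableSet_lt (hg _) ((hg _).add_const _)
  exact ⟨f, hf, hfF⟩

end FA.Selection
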