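import Fermat.Agent.SilverDichotomy.Category
import Mathlib.MeasureTheory.Measure.WithDensityFinite
import Mathlib.MeasureTheory.Measure.AEMeasurable

/-!
# The σ-algebra of analytic sets, and universal measurability

Analytic sets are measurable for every s-finite measure on the Borel sets (Lusin). The proof is
the envelope argument for a Suslin scheme, with the measurable hull as envelope.
-/

set_option autoImplicit false

universe u v

namespace FA.Selection

open Set Topology Filter MeasureTheory PiNat

variable {X : Type u} [TopologicalSpace X]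

/-- **Lusin.** Analytic sets are measurable for every finite measure. -/
theorem analyticSet_nullMeasurableSet_of_finite [T2Space X] [MeasurableSpace X]
    [OpensMeasurableSpace X] (μ : Measure X) [IsFiniteMeasure μ] {A : Set X}
    (hA : AnalyticSet A) : NullMeasurableSet A μ := by
  rw [AnalyticSet] at hA
  rcases hA with rfl | ⟨f, hf, rfl⟩
  · exact nullMeasurableSet_empty
  let cyl : List ℕ → Set (ℕ → ℕ) := fun s => {z | res z s.length = s}
  let M : List ℕ → Set X := fun s => toMeasurable μ (f '' cyl s) ∩ closure (f '' cyl s)
  have hM : ∀ s, MeasurableSet (M s) := fun s =>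
    (measurableSet_toMeasurable _ _).inter isClosed_closure.measurableSet
  have hAM : ∀ s, f '' cyl s ⊆ M s := fun s =>
    subset_inter (subset_toMeasurable _ _) subset_closure
  have hmax : ∀ s B, MeasurableSet B → B ⊆ M s \ f '' cyl s → μ B = 0 := fun s B hB hsub => by
    have h1 : μ (M s) ≤ μ (f '' cyl s) :=
      (measure_mono inter_subset_left).trans_eq (measure_toMeasurable _)
    have h2 : μ (f '' cyl s) ≤ μ (M s \ B) :=
      measure_mono fun x hx => ⟨hAM s hx, fun hxB => (hsub hxB).2 hx⟩
    rw [measure_sdiff (fun x hx => (hsub hx).1) hB.nullMeasurableSet (measure_ne_top _ _)] at h2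
    by_contra h0
    exact absurd (h1.trans h2)
      (ENNReal.sub_lt_self (measure_ne_top μ _)
        (fun h => h0 (nonpos_iff_eq_zero.1
          ((measure_mono fun x hx => (hsub hx).1).trans_eq h))) h0).not_ge
  have hpiece : ∀ s, μ (M s \ ⋃ n, M (n :: s)) = 0 := fun s => by
    refine hmax s _ ((hM s).diff (MeasurableSet.iUnion fun n => hM _)) fun x hx => ⟨hx.1, ?_⟩
    rintro ⟨z, hz, rfl⟩
    exact hx.2 (mem_iUnion.2 ⟨z s.length, hAM _ ⟨z, by
      change res z (s.length + 1) = z s.length :: s
      rw [res_succ, show res z s.length = s from hz], rfl⟩⟩)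
  have hsub : M [] \ range f ⊆ ⋃ s, (M s \ ⋃ n, M (n :: s)) := by
    rintro x ⟨hx, hxf⟩
    by_contra hno
    simp only [mem_iUnion, Set.mem_sdiff, not_exists, not_and, not_forall, not_not] at hno
    choose next hnext using hno
    let br : ℕ → {s : List ℕ // x ∈ M s} := fun n =>
      Nat.rec ⟨[], hx⟩ (fun _ s => ⟨next s.1 s.2 :: s.1, hnext s.1 s.2⟩) n
    let z : ℕ → ℕ := fun n => next (br n).1 (br n).2
    have hres : ∀ n, res z n = (br n).1 := fun n => by
      induction n with
      | zero => rfl
      | succ n ih => rw [res_succ, ih]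
    obtain ⟨U, V, hU, hV, hxU, hzV, hUV⟩ := t2_separation fun h : x = f z => hxf ⟨z, h.symm⟩
    obtain ⟨_, ⟨w, n, rfl⟩, hzn, hnV⟩ := (isTopologicalBasis_cylinders fun _ : ℕ => ℕ)
      |>.exists_subset_of_mem_open (a := z) hzV (hV.preimage hf)
    obtain ⟨_, hyU, y, hy, rfl⟩ := mem_closure_iff.1 (br n).2.2 U hU hxU
    refine hUV.le_bot ⟨hyU, hnV ?_⟩
    rw [← mem_cylinder_iff_eq.1 hzn, cylinder_eq_res, mem_ofPred_eq, hres]
    have hlen : (br n).1.length = n := by rw [← hres, res_length]
    simpa only [cyl, mem_ofPred_eq, hlen] using hy
  have hrange : range f ⊆ M [] := fun x ⟨z, hz⟩ => hAM _ ⟨z, rfl, hz⟩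
  rw [← sdiff_sdiff_cancel_left hrange]
  exact (hM []).nullMeasurableSet.diff
    (NullMeasurableSet.of_null (measure_mono_null hsub (measure_iUnion_null hpiece)))

/-- **Lusin.** Analytic sets are universally measurable. -/
theorem analyticSet_nullMeasurableSet [T2Space X] [MeasurableSpace X] [OpensMeasurableSpace X]
    (μ : Measure X) [SFinite μ] {A : Set X} (hA : AnalyticSet A) : NullMeasurableSet A μ :=
  (analyticSet_nullMeasurableSet_of_finite μ.toFinite hA).mono_ac
    (absolutelyContinuous_toFinite μ)

variable (X) in
/-- The σ-algebra generated by the analytic sets. -/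
@[instance_reducible]
def analyticSpace : MeasurableSpace X :=
  MeasurableSpace.generateFrom {A | AnalyticSet A}

theorem analyticSet_measurable_analyticSpace {A : Set X} (hA : AnalyticSet A) :
    MeasurableSet[analyticSpace X] A :=
  MeasurableSpace.measurableSet_generateFrom hA

/-- Borel sets belong to the σ-algebra generated by the analytic sets. -/
theorem le_analyticSpace [PolishSpace X] [MeasurableSpace X] [BorelSpace X] :
    ‹MeasurableSpace X› ≤ analyticSpace X :=
  fun _ hs => analyticSet_measurable_analyticSpace hs.analyticSet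

variable {Y : Type v} [MeasurableSpace Y]

/-- A map measurable for the analytic σ-algebra is null-measurable for every s-finite measure. -/
theorem nullMeasurable_of_analyticSpace [T2Space X] [mX : MeasurableSpace X]
    [OpensMeasurableSpace X] (μ : Measure X) [SFinite μ] {f : X → Y}
    (hf : Measurable[analyticSpace X] f) : NullMeasurable f μ := fun s hs => by
  have hle : analyticSpace X ≤
      (inferInstance : MeasurableSpace (NullMeasurableSpace X μ)) :=
    MeasurableSpace.generateFrom_le fun A hA => analyticSet_nullMeasurableSet (X := X) μ hA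
  exact hle _ (hf hs)

/-- A map measurable for the analytic σ-algebra has the property of Baire. -/
theorem baireMeasurable_of_analyticSpace [T2Space X] [SecondCountableTopology X] {f : X → Y}
    (hf : Measurable[analyticSpace X] f) {s : Set Y} (hs : MeasurableSet s) :
    BaireMeasurableSet (f ⁻¹' s) := by
  have hle : analyticSpace X ≤ eventuallyMeasurableSpace (borel X) (residual X) :=
    MeasurableSpace.generateFrom_le fun A hA =>
      FA.SilverDichotomy.analyticSet_baireMeasurable hA
  exact hle _ (hf hs)

end FA.Selection
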