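import Fermat.Agent.Selection.LusinNovikov
import Mathlib.GroupTheory.FreeGroup.Basic

/-!
# The theorem of Feldman and Moore

A Borel equivalence relation with countable classes is the orbit relation of a countable group
of Borel automorphisms.
-/

set_option autoImplicit false

universe u

namespace FA.Selection

open Set Topology MeasureTheory

variable {X : Type u} [TopologicalSpace X] [PolishSpace X] [MeasurableSpace X] [BorelSpace X]

/-- A symmetric Borel partial graph off the diagonal extends to a Borel involution. -/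
theorem exists_involution {T : Set (X × X)} (hT : MeasurableSet T)
    (hi : InjOn Prod.fst T) (hsymm : ∀ p ∈ T, (p.2, p.1) ∈ T) :
    ∃ σ : X → X, Measurable σ ∧ Function.Involutive σ ∧ (∀ p ∈ T, σ p.1 = p.2) ∧
      ∀ x, σ x = x ∨ (x, σ x) ∈ T := by
  classical
  have : PolishSpace (X × X) := ⟨⟩
  let σ : X → X := fun x => if h : ∃ y, (x, y) ∈ T then h.choose else x
  have hσ : ∀ p ∈ T, σ p.1 = p.2 := fun p hp => by
    have hex : ∃ y, (p.1, y) ∈ T := ⟨p.2, hp⟩
    simp only [σ, hex, dif_pos]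
    exact congrArg Prod.snd (hi hex.choose_spec hp rfl)
  have hout : ∀ x ∉ Prod.fst '' T, σ x = x := fun x hx =>
    dif_neg fun ⟨y, hy⟩ => hx ⟨(x, y), hy, rfl⟩
  refine ⟨σ, measurable_of_measurableSet_graph ?_, fun x => ?_, hσ, fun x => ?_⟩
  · convert hT.union
      ((measurableSet_eq_fun (measurable_fst (β := X)) (measurable_snd (α := X))).inter
        (measurable_fst (hT.image_of_continuousOn_injOn continuous_fst.continuousOn hi).compl))
      using 1
    ext p
    by_cases hp : p.1 ∈ Prod.fst '' T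
    · obtain ⟨q, hq, hqp⟩ := hp
      have e : σ p.1 = q.2 := hqp ▸ hσ q hq
      constructor
      · exact fun h => .inl (show p ∈ T from Prod.ext hqp (e.symm.trans h) ▸ hq)
      · rintro (h | h)
        · exact hσ p h
        · exact absurd ⟨q, hq, hqp⟩ h.2
    · constructor
      · exact fun h => .inr ⟨((hout _ hp).symm.trans h : p.1 = p.2), hp⟩
      · rintro (h | h)
        · exact absurd ⟨p, h, rfl⟩ hp
        · exact (hout _ hp).trans h.1
  all_goals by_cases hx : x ∈ Prod.fst '' T
  · obtain ⟨p, hp, rfl⟩ := hx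
    rw [hσ p hp]
    exact hσ _ (hsymm p hp)
  · rw [hout x hx, hout x hx]
  · obtain ⟨p, hp, rfl⟩ := hx
    exact .inr (by rw [hσ p hp]; exact hp)
  · exact .inl (hout x hx)

/-- **Feldman and Moore.** A Borel equivalence relation with countable classes is given by
countably many Borel involutions. -/
theorem exists_borel_involutions (s : Setoid X) (hs : MeasurableSet {p : X × X | s p.1 p.2})
    (hcount : ∀ x, {y | s x y}.Countable) :
    ∃ σ : ℕ → X → X, (∀ n, Measurable (σ n)) ∧ (∀ n, Function.Involutive (σ n)) ∧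
      ∀ x y, s x y ↔ ∃ n, σ n x = y := by
  classical
  have : PolishSpace (X × X) := ⟨⟩
  obtain ⟨P, hPm, hPi, hP⟩ := exists_partial_graphs hs hcount
  obtain ⟨B, hBm, hB⟩ := exists_seq_separating X (p := MeasurableSet) MeasurableSet.empty univ
  let Q : ℕ → ℕ → ℕ → Set (X × X) := fun n m k =>
    P n ∩ Prod.swap ⁻¹' P m ∩ B k ×ˢ (B k)ᶜ
  let T : ℕ → ℕ → ℕ → Set (X × X) := fun n m k => Q n m k ∪ Prod.swap ⁻¹' Q n m k
  have hTm : ∀ n m k, MeasurableSet (T n m k) := fun n m k =>
    have hQ : MeasurableSet (Q n m k) :=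
      ((hPm n).inter (measurable_swap (hPm m))).inter ((hBm k).prod (hBm k).compl)
    hQ.union (measurable_swap hQ)
  have hTi : ∀ n m k, InjOn Prod.fst (T n m k) := by
    rintro n m k p (hp | hp) q (hq | hq) hpq
    · exact hPi n hp.1.1 hq.1.1 hpq
    · exact absurd (hpq ▸ hp.2.1 : q.1 ∈ B k) hq.2.2
    · exact absurd (hpq ▸ hq.2.1 : p.1 ∈ B k) hp.2.2
    · exact hPi m (by simpa using hp.1.2) (by simpa using hq.1.2) hpq
  have hTs : ∀ n m k, ∀ p ∈ T n m k, (p.2, p.1) ∈ T n m k := fun n m k p hp =>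
    hp.elim (fun h => .inr h) fun h => .inl h
  choose τ hτm hτinv hτT hτ using fun n m k => exists_involution (hTm n m k) (hTi n m k) (hTs n m k)
  have hTE : ∀ n m k, T n m k ⊆ {p | s p.1 p.2} := fun n m k p hp => by
    rcases hp with h | h
    · exact hP.subset (mem_iUnion.2 ⟨n, h.1.1⟩)
    · exact s.symm (hP.subset (mem_iUnion.2 ⟨n, h.1.1⟩) : s p.2 p.1)
  obtain ⟨e, he⟩ := exists_surjective_nat (Option (ℕ × ℕ × ℕ))
  let σ : ℕ → X → X := fun i => match e i with
    | none => id
    | some (n, m, k) => τ n m k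
  refine ⟨σ, fun i => ?_, fun i => ?_, fun x y => ⟨fun hxy => ?_, ?_⟩⟩
  · simp only [σ]
    split
    exacts [measurable_id, hτm _ _ _]
  · simp only [σ]
    split
    exacts [fun _ => rfl, hτinv _ _ _]
  · rcases eq_or_ne x y with rfl | hne
    · obtain ⟨i, hi⟩ := he none
      exact ⟨i, by simp [σ, hi]⟩
    obtain ⟨n, hn⟩ := mem_iUnion.1 (hP.ge (show (x, y) ∈ {p : X × X | s p.1 p.2} from hxy))
    obtain ⟨m, hm⟩ := mem_iUnion.1
      (hP.ge (show (y, x) ∈ {p : X × X | s p.1 p.2} from s.symm hxy))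
    obtain ⟨k, hk⟩ : ∃ k, ¬(x ∈ B k ↔ y ∈ B k) :=
      not_forall.1 fun h => hne (hB x (mem_univ _) y (mem_univ _) h)
    by_cases hx : x ∈ B k
    · obtain ⟨i, hi⟩ := he (some (n, m, k))
      refine ⟨i, ?_⟩
      simp only [σ, hi]
      exact hτT n m k (x, y) (.inl ⟨⟨hn, hm⟩, hx, fun hy => hk ⟨fun _ => hy, fun _ => hx⟩⟩)
    · obtain ⟨i, hi⟩ := he (some (m, n, k))
      refine ⟨i, ?_⟩
      simp only [σ, hi]
      exact hτT m n k (x, y) (.inr ⟨⟨hm, hn⟩, by_contra fun hy =>
        hk ⟨fun h => absurd h hx, fun h => absurd h hy⟩, hx⟩)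
  · rintro ⟨i, rfl⟩
    rcases hei : e i with _ | ⟨n, m, k⟩ <;> simp only [σ, hei]
    · exact s.refl x
    · rcases hτ n m k x with h | h
      · rw [h]
      · exact hTE _ _ _ h

/-- **Feldman and Moore, for groups.** A Borel equivalence relation with countable classes is
the orbit relation of a countable group of Borel automorphisms. -/
theorem exists_countable_group (s : Setoid X) (hs : MeasurableSet {p : X × X | s p.1 p.2})
    (hcount : ∀ x, {y | s x y}.Countable) :
    ∃ Γ : Subgroup (Equiv.Perm X), (Γ : Set (Equiv.Perm X)).Countable ∧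
      (∀ g ∈ Γ, Measurable g) ∧ ∀ x y, s x y ↔ ∃ g ∈ Γ, g x = y := by
  obtain ⟨σ, hσm, hσi, hσ⟩ := exists_borel_involutions s hs hcount
  let g : ℕ → Equiv.Perm X := fun n => (hσi n).toPerm (σ n)
  have : Countable (FreeGroup ℕ) := Quot.mk_surjective.countable
  refine ⟨Subgroup.closure (range g), ?_, fun h hh => ?_, fun x y => ⟨fun hxy => ?_, ?_⟩⟩
  · rw [← FreeGroup.range_lift_eq_closure]
    exact countable_range _
  · suffices Measurable h ∧ Measurable h.symm from this.1
    induction hh using Subgroup.closure_induction with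
    | mem a ha =>
      obtain ⟨n, rfl⟩ := ha
      exact ⟨hσm n, hσm n⟩
    | one => exact ⟨measurable_id, measurable_id⟩
    | mul a b _ _ ha hb => exact ⟨ha.1.comp hb.1, hb.2.comp ha.2⟩
    | inv a _ ha => exact ⟨ha.2, ha.1⟩
  · obtain ⟨n, rfl⟩ := (hσ x y).1 hxy
    exact ⟨g n, Subgroup.subset_closure ⟨n, rfl⟩, rfl⟩
  · rintro ⟨h, hh, rfl⟩
    induction hh using Subgroup.closure_induction generalizing x with
    | mem a ha =>
      obtain ⟨n, rfl⟩ := ha
      exact (hσ x _).2 ⟨n, rfl⟩
    | one => exact s.refl x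
    | mul a b _ _ ha hb => exact s.trans (hb x) (ha (b x))
    | inv a _ ha => exact s.symm (by simpa using ha (a⁻¹ x))

end FA.Selection
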