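import Fermat.Agent.SilverDichotomy.Dichotomy

/-!
# The theorem of Lusin and Novikov

A Borel set of the plane with countable sections is the union of countably many Borel partial
graphs. The proof is Miller's, from the dichotomy of Kechris, Solecki and Todorcevic.
-/

set_option autoImplicit false

universe u v

namespace FA.Selection

open Set Topology Filter MeasureTheory FA.SilverDichotomy

/-- A continuous map which is unchanged along the edges of `G_0` is constant. -/
theorem eq_of_gZero_invariant {Z : Type u} [TopologicalSpace Z] [T2Space Z]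
    {g : (ℕ → Bool) → Z} (hg : Continuous g) (h : ∀ x y, gZero x y → g x = g y)
    (x y : ℕ → Bool) : g x = g y := by
  classical
  have key : ∀ n x y, (∀ i, n ≤ i → x i = y i) → g x = g y := by
    intro n
    induction n with
    | zero => exact fun x y hxy => congrArg g (funext fun i => hxy i (Nat.zero_le i))
    | succ n ih =>
      intro x y hxy
      let w : Bool → ℕ → Bool := fun b i =>
        if i < n then denseWord n i else if i = n then b else x i
      have hedge : g (w false) = g (w true) := h _ _ ⟨n, fun i hi => by simp [w, hi],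
        by simp [w], by simp [w], fun i hi => by simp [w, hi.not_gt, hi.ne']⟩
      have hx : g x = g (w (x n)) := ih _ _ fun i hi => by
        rcases hi.eq_or_lt with rfl | hlt
        · simp [w]
        · simp [w, hlt.not_gt, hlt.ne']
      have hy : g y = g (w (y n)) := ih _ _ fun i hi => by
        rcases hi.eq_or_lt with rfl | hlt
        · simp [w]
        · simp [w, hlt.not_gt, hlt.ne', hxy i hlt]
      rw [hx, hy]
      cases x n <;> cases y n <;> simp [hedge]
  let z : ℕ → ℕ → Bool := fun m i => if i < m then y i else x i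
  have hz : Tendsto z atTop (𝓝 y) := tendsto_pi_nhds.2 fun i =>
    tendsto_const_nhds.congr' (Eventually.mono (eventually_gt_atTop i) fun m hm => (if_pos hm).symm)
  refine tendsto_nhds_unique (l := atTop) (f := fun m => g (z m)) ?_ ((hg.tendsto y).comp hz)
  exact tendsto_const_nhds.congr fun m => key m _ _ fun i hi => by simp [z, hi.not_gt]

variable {X : Type u} [TopologicalSpace X] [PolishSpace X] [MeasurableSpace X] [BorelSpace X]
  {Y : Type v} [TopologicalSpace Y] [PolishSpace Y] [MeasurableSpace Y] [BorelSpace Y]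

/-- **Lusin and Novikov.** A Borel set with countable sections is a countable union of Borel
partial graphs. -/
theorem exists_partial_graphs {R : Set (X × Y)} (hR : MeasurableSet R)
    (hsec : ∀ x, {y | (x, y) ∈ R}.Countable) :
    ∃ P : ℕ → Set (X × Y), (∀ n, MeasurableSet (P n)) ∧ (∀ n, InjOn Prod.fst (P n)) ∧
      ⋃ n, P n = R := by
  classical
  have : PolishSpace (X × Y) := ⟨⟩
  have : PolishSpace ((X × Y) × (X × Y)) := ⟨⟩
  let G : Set ((X × Y) × (X × Y)) := {e | e.1 ∈ R ∧ e.2 ∈ R ∧ e.1.1 = e.2.1 ∧ e.1.2 ≠ e.2.2}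
  have hG : MeasurableSet G := (measurable_fst hR).inter ((measurable_snd hR).inter
    ((measurableSet_eq_fun measurable_fst.fst measurable_snd.fst).inter
      (measurableSet_eq_fun measurable_fst.snd measurable_snd.snd).compl))
  rcases exists_colouring_or_hom hG.analyticSet with ⟨c, hc, hcol⟩ | ⟨h, hh, hhom⟩
  · refine ⟨fun n => R ∩ c ⁻¹' {n}, fun n => hR.inter (hc (measurableSet_singleton n)),
      fun n p hp q hq hpq => Prod.ext hpq (by_contra fun hne => ?_), ?_⟩
    · exact hcol p q ⟨hp.1, hq.1, hpq, hne⟩ ((mem_singleton_iff.1 hp.2).trans hq.2.symm)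
    · ext p
      simp
  exfalso
  let o : ℕ → Bool := fun _ => false
  have hconst : ∀ x, (h x).1 = (h o).1 := fun x =>
    eq_of_gZero_invariant hh.fst (fun a b hab => (hhom a b hab).2.2.1) x o
  obtain ⟨e, he⟩ := countable_iff_exists_injOn.1 (hsec (h o).1)
  let c : (ℕ → Bool) → ℕ := fun x => if h x ∈ R then e (h x).2 + 1 else 0
  have hcm : Measurable c := by
    refine measurable_to_countable' fun k => ?_
    rcases k with _ | k
    · convert (hh.measurable hR).compl using 1
      ext x
      by_cases hx : h x ∈ R <;> simp [c, hx]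
    · have hS : {y | ((h o).1, y) ∈ R ∧ e y = k}.Countable := (hsec _).mono fun y hy => hy.1
      convert (hh.measurable hR).inter (hh.snd.measurable hS.measurableSet) using 1
      ext x
      by_cases hx : h x ∈ R
      · have : ((h o).1, (h x).2) ∈ R := by rwa [← hconst x]
        simp [c, hx, this]
      · simp [c, hx]
  obtain ⟨x, y, hxy, heq⟩ := exists_gZero_same_colour (c := c) fun k =>
    (hcm (measurableSet_singleton k)).baireMeasurableSet
  obtain ⟨hxR, hyR, -, hne⟩ := hhom x y hxy
  simp only [c, hxR, hyR, if_true, add_left_inj] at heq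
  exact hne (he (show ((h o).1, (h x).2) ∈ R by rwa [← hconst x])
    (show ((h o).1, (h y).2) ∈ R by rwa [← hconst y]) heq)

/-- **Borel uniformisation.** A Borel set with countable sections has a Borel projection and
contains a Borel graph over it. -/
theorem exists_borel_uniformization {R : Set (X × Y)} (hR : MeasurableSet R)
    (hsec : ∀ x, {y | (x, y) ∈ R}.Countable) :
    MeasurableSet (Prod.fst '' R) ∧
      ∃ S ⊆ R, MeasurableSet S ∧ InjOn Prod.fst S ∧ Prod.fst '' S = Prod.fst '' R := by
  classical
  have : PolishSpace (X × Y) := ⟨⟩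
  obtain ⟨P, hPm, hPi, rfl⟩ := exists_partial_graphs hR hsec
  have hD : ∀ n, MeasurableSet (Prod.fst '' P n) := fun n =>
    (hPm n).image_of_continuousOn_injOn continuous_fst.continuousOn (hPi n)
  refine ⟨by rw [image_iUnion]; exact MeasurableSet.iUnion hD,
    ⋃ n, P n \ Prod.fst ⁻¹' ⋃ m < n, Prod.fst '' P m, iUnion_mono fun n => sdiff_subset,
    MeasurableSet.iUnion fun n => (hPm n).diff
      (measurable_fst (MeasurableSet.iUnion fun m => MeasurableSet.iUnion fun _ => hD m)),
    ?_, ?_⟩
  · intro p hp q hq hpq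
    simp only [mem_iUnion, Set.mem_sdiff, mem_preimage, not_exists] at hp hq
    obtain ⟨n, hpn, hp'⟩ := hp
    obtain ⟨m, hqm, hq'⟩ := hq
    rcases lt_trichotomy n m with h | h | h
    · exact absurd ⟨p, hpn, hpq⟩ (hq' n h)
    · exact hPi n hpn (h ▸ hqm) hpq
    · exact absurd ⟨q, hqm, hpq.symm⟩ (hp' m h)
  · refine (image_mono (iUnion_mono fun n => sdiff_subset)).antisymm ?_
    rintro x ⟨p, hp, rfl⟩
    have hex : ∃ n, p.1 ∈ Prod.fst '' P n :=
      ⟨(mem_iUnion.1 hp).choose, p, (mem_iUnion.1 hp).choose_spec, rfl⟩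
    obtain ⟨q, hq, hqp⟩ := Nat.find_spec hex
    refine ⟨q, mem_iUnion.2 ⟨Nat.find hex, hq, ?_⟩, hqp⟩
    simp only [mem_preimage, mem_iUnion, not_exists]
    intro m hm hmem
    exact Nat.find_min hex hm (hqp ▸ hmem)

/-- A map with a Borel graph is Borel. -/
theorem measurable_of_measurableSet_graph {f : X → Y}
    (hf : MeasurableSet {p : X × Y | f p.1 = p.2}) : Measurable f := fun V hV => by
  have : PolishSpace (X × Y) := ⟨⟩
  convert (hf.inter (measurable_snd hV)).image_of_continuousOn_injOn continuous_fst.continuousOn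
    (fun p hp q hq hpq => Prod.ext hpq (hp.1.symm.trans ((congrArg f hpq).trans hq.1))) using 1
  ext x
  constructor
  · exact fun h => ⟨(x, f x), ⟨rfl, h⟩, rfl⟩
  · rintro ⟨p, ⟨hp, hpV⟩, rfl⟩
    exact show f p.1 ∈ V from hp ▸ hpV

/-- **A Borel selection.** A Borel set with countable sections contains the graph of a Borel
function over its projection. -/
theorem exists_borel_selection [Nonempty Y] {R : Set (X × Y)} (hR : MeasurableSet R)
    (hsec : ∀ x, {y | (x, y) ∈ R}.Countable) :
    ∃ f : X → Y, Measurable f ∧ ∀ x ∈ Prod.fst '' R, (x, f x) ∈ R := by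
  classical
  obtain ⟨hD, S, hSR, hSm, hSi, hSD⟩ := exists_borel_uniformization hR hsec
  obtain ⟨y₀⟩ := ‹Nonempty Y›
  let f : X → Y := fun x => if h : ∃ y, (x, y) ∈ S then h.choose else y₀
  have hf : ∀ p ∈ S, f p.1 = p.2 := fun p hp => by
    have hex : ∃ y, (p.1, y) ∈ S := ⟨p.2, hp⟩
    simp only [f, hex, dif_pos]
    exact congrArg Prod.snd (hSi hex.choose_spec hp rfl)
  refine ⟨f, measurable_of_measurableSet_graph ?_, fun x hx => ?_⟩
  · convert hSm.union (hD.compl.prod (measurableSet_singleton y₀)) using 1
    ext p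
    rw [← hSD]
    by_cases hp : p.1 ∈ Prod.fst '' S
    · obtain ⟨q, hq, hqp⟩ := hp
      have e : f p.1 = q.2 := hqp ▸ hf q hq
      constructor
      · exact fun h => .inl (show p ∈ S from Prod.ext hqp (e.symm.trans h) ▸ hq)
      · rintro (h | h)
        · exact hf p h
        · exact absurd ⟨q, hq, hqp⟩ h.1
    · have e : f p.1 = y₀ := dif_neg fun ⟨y, hy⟩ => hp ⟨(p.1, y), hy, rfl⟩
      constructor
      · exact fun h => .inr ⟨hp, (e.symm.trans h).symm⟩
      · rintro (h | h)
        · exact absurd ⟨p, h, rfl⟩ hp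
        · exact e.trans (mem_singleton_iff.1 h.2).symm
  · obtain ⟨p, hp, rfl⟩ := hSD.symm ▸ hx
    rw [hf p hp]
    exact hSR hp

end FA.Selection
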